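import Fermat.Agent.LT.T3.H315.AbelCut

/-!
# Row LT, tower T3, sub-leaf T3.18a.2.4b `UnitaryHaarC` (registry 1173; helper572) — CLOSED

OFF-MAIN.  `unitaryHaarC572 : Fermat.Agent.LT.T3.H315.UnitaryHaarC`, verbatim against
`Fermat/Agent/LT/T3/H315/AbelCut.lean` (helper315@4ea336ee2, sha256 446d055e), byte-identical copies
of its import closure.

* `U(2) ⊆ GL₂(ℂ)` is compact in the units topology: its image under `k ↦ (k, k⁻¹)` is the image of
  the closed bounded set of unitary matrices under `A ↦ (A, Aᴴ)`.
* `U(2)` is a compact topological group; its Haar probability measure is left invariant, and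
  right invariant by the uniqueness of the Haar measure of a compact group (the total masses
  agree); the measure `m` is its image in `GL₂(ℂ)`.
-/

set_option autoImplicit false

open MeasureTheory Topology
open scoped Matrix

noncomputable section

namespace Fermat.Agent.LT.T3.H572

/-- The set of unitary `2 × 2` matrices. -/
def unitaryMat572 : Set (Matrix (Fin 2) (Fin 2) ℂ) := {A | A * A.conjTranspose = 1}

theorem isClosed_unitaryMat572 : IsClosed unitaryMat572 := by
  have h : Continuous fun A : Matrix (Fin 2) (Fin 2) ℂ => A * A.conjTranspose :=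
    continuous_id.matrix_mul continuous_id.matrix_conjTranspose
  exact isClosed_eq h continuous_const

theorem isCompact_unitaryMat572 : IsCompact unitaryMat572 := by
  have hbox : IsCompact {A : Matrix (Fin 2) (Fin 2) ℂ | ∀ i j, ‖A i j‖ ≤ 1} := by
    have h0 : IsCompact (Set.pi Set.univ fun _ : Fin 2 =>
        Set.pi Set.univ fun _ : Fin 2 => Metric.closedBall (0 : ℂ) 1) :=
      isCompact_univ_pi fun _ => isCompact_univ_pi fun _ => isCompact_closedBall 0 1
    have heq : {A : Matrix (Fin 2) (Fin 2) ℂ | ∀ i j, ‖A i j‖ ≤ 1}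
        = (Set.pi Set.univ fun _ : Fin 2 =>
            Set.pi Set.univ fun _ : Fin 2 => Metric.closedBall (0 : ℂ) 1) := by
      ext A
      constructor
      · intro h i _ j _
        rw [mem_closedBall_zero_iff]
        exact h i j
      · intro h i j
        have := h i (Set.mem_univ i) j (Set.mem_univ j)
        rwa [mem_closedBall_zero_iff] at this
    rw [heq]
    exact h0
  refine hbox.of_isClosed_subset isClosed_unitaryMat572 ?_
  intro A hA i j
  exact entry_norm_bound_of_unitary (Matrix.mem_unitaryGroup_iff.2 hA) i j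

/-- The inverse of a unitary element of `GL₂(ℂ)` is its conjugate transpose. -/
theorem inv_val_of_unitary572 {k : GL (Fin 2) ℂ}
    (hk : (k : Matrix (Fin 2) (Fin 2) ℂ) * (k : Matrix (Fin 2) (Fin 2) ℂ).conjTranspose = 1) :
    ((k⁻¹ : GL (Fin 2) ℂ) : Matrix (Fin 2) (Fin 2) ℂ)
      = (k : Matrix (Fin 2) (Fin 2) ℂ).conjTranspose :=
  Units.inv_eq_of_mul_eq_one_right hk

/-- `U(2)` as a subset of `GL₂(ℂ)`. -/
def unitarySet572 : Set (GL (Fin 2) ℂ) :=
  {k | (k : Matrix (Fin 2) (Fin 2) ℂ) * (k : Matrix (Fin 2) (Fin 2) ℂ).conjTranspose = 1}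

/-- **`U(2)` is compact in `GL₂(ℂ)`.** -/
theorem isCompact_unitarySet572 : IsCompact unitarySet572 := by
  rw [Units.isEmbedding_embedProduct.isCompact_iff]
  have hg : Continuous fun A : Matrix (Fin 2) (Fin 2) ℂ =>
      ((A, MulOpposite.op A.conjTranspose) :
        Matrix (Fin 2) (Fin 2) ℂ × (Matrix (Fin 2) (Fin 2) ℂ)ᵐᵒᵖ) :=
    continuous_id.prodMk (MulOpposite.continuous_op.comp continuous_id.matrix_conjTranspose)
  have himg := isCompact_unitaryMat572.image hg
  convert himg using 1
  ext p
  constructor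
  · rintro ⟨k, hk, rfl⟩
    refine ⟨(k : Matrix (Fin 2) (Fin 2) ℂ), hk, ?_⟩
    simp only [Units.embedProduct_apply]
    rw [inv_val_of_unitary572 hk]
  · rintro ⟨A, hA, rfl⟩
    have hA2 : A.conjTranspose * A = 1 := mul_eq_one_comm.1 hA
    refine ⟨⟨A, A.conjTranspose, hA, hA2⟩, hA, ?_⟩
    simp only [Units.embedProduct_apply]
    rfl

/-- `U(2)` as a subgroup of `GL₂(ℂ)`. -/
def unitarySub572 : Subgroup (GL (Fin 2) ℂ) where
  carrier := unitarySet572
  mul_mem' := by
    intro a b ha hb
    change ((a * b : GL (Fin 2) ℂ) : Matrix (Fin 2) (Fin 2) ℂ)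
      * ((a * b : GL (Fin 2) ℂ) : Matrix (Fin 2) (Fin 2) ℂ).conjTranspose = 1
    have ha' : (a : Matrix (Fin 2) (Fin 2) ℂ) * (a : Matrix (Fin 2) (Fin 2) ℂ).conjTranspose = 1 :=
      ha
    have hb' : (b : Matrix (Fin 2) (Fin 2) ℂ) * (b : Matrix (Fin 2) (Fin 2) ℂ).conjTranspose = 1 :=
      hb
    rw [Units.val_mul, Matrix.conjTranspose_mul, Matrix.mul_assoc,
      ← Matrix.mul_assoc (b : Matrix (Fin 2) (Fin 2) ℂ), hb', Matrix.one_mul, ha']
  one_mem' := by
    change ((1 : GL (Fin 2) ℂ) : Matrix (Fin 2) (Fin 2) ℂ)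
      * ((1 : GL (Fin 2) ℂ) : Matrix (Fin 2) (Fin 2) ℂ).conjTranspose = 1
    simp
  inv_mem' := by
    intro a ha
    have ha' : (a : Matrix (Fin 2) (Fin 2) ℂ) * (a : Matrix (Fin 2) (Fin 2) ℂ).conjTranspose = 1 :=
      ha
    change ((a⁻¹ : GL (Fin 2) ℂ) : Matrix (Fin 2) (Fin 2) ℂ)
      * ((a⁻¹ : GL (Fin 2) ℂ) : Matrix (Fin 2) (Fin 2) ℂ).conjTranspose = 1
    rw [inv_val_of_unitary572 ha', Matrix.conjTranspose_conjTranspose]
    exact mul_eq_one_comm.1 ha'

theorem mem_unitarySub572 (k : GL (Fin 2) ℂ) :
    k ∈ unitarySub572 ↔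
      (k : Matrix (Fin 2) (Fin 2) ℂ) * (k : Matrix (Fin 2) (Fin 2) ℂ).conjTranspose = 1 :=
  Iff.rfl

instance compactSpace_unitarySub572 : CompactSpace unitarySub572 :=
  isCompact_iff_compactSpace.1 isCompact_unitarySet572

/-- On a compact group, a left invariant probability measure which is a Haar measure is right
invariant (uniqueness of the Haar measure; the total masses agree). -/
theorem map_mul_right_eq_self_of_compact572 {S : Type*} [Group S] [TopologicalSpace S]
    [IsTopologicalGroup S] [CompactSpace S] [MeasurableSpace S] [BorelSpace S]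
    (μ : Measure S) [μ.IsHaarMeasure] [IsProbabilityMeasure μ] (s₀ : S) :
    Measure.map (fun s => s * s₀) μ = μ := by
  have hmr : Measurable (fun s : S => s * s₀) := (continuous_mul_const s₀).measurable
  have : IsProbabilityMeasure (Measure.map (fun s => s * s₀) μ) :=
    Measure.isProbabilityMeasure_map hmr.aemeasurable
  have : (Measure.map (fun s => s * s₀) μ).IsMulLeftInvariant := ⟨fun g => by
    have hml : Measurable (fun s : S => g * s) := (continuous_const_mul g).measurable
    rw [Measure.map_map hml hmr]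
    have e : (fun s => g * s) ∘ (fun s => s * s₀) = (fun s => s * s₀) ∘ (fun s : S => g * s) := by
      funext s
      simp [mul_assoc]
    rw [e, ← Measure.map_map hmr hml, map_mul_left_eq_self]⟩
  have h := Measure.isMulInvariant_eq_smul_of_compactSpace (Measure.map (fun s => s * s₀) μ) μ
  have h1 : (Measure.map (fun s => s * s₀) μ) Set.univ
      = ((Measure.haarScalarFactor (Measure.map (fun s => s * s₀) μ) μ • μ : Measure S)) Set.univ := by
    rw [← h]
  rw [measure_univ, Measure.smul_apply, measure_univ] at h1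
  have hc : Measure.haarScalarFactor (Measure.map (fun s => s * s₀) μ) μ = 1 := by
    have h2 : ((Measure.haarScalarFactor (Measure.map (fun s => s * s₀) μ) μ : NNReal) : ENNReal)
        = 1 := by
      simpa using h1.symm
    exact_mod_cast h2
  rw [h, hc, one_smul]

/-- **T3.18a.2.4b `UnitaryHaarC`.** -/
theorem unitaryHaarC572 : Fermat.Agent.LT.T3.H315.UnitaryHaarC := by
  let : MeasurableSpace (GL (Fin 2) ℂ) := borel (GL (Fin 2) ℂ)
  have : BorelSpace (GL (Fin 2) ℂ) := ⟨rfl⟩
  refine ⟨isCompact_unitarySet572, ?_⟩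
  have : BorelSpace unitarySub572 := Subtype.borelSpace _
  let μS : Measure unitarySub572 := Measure.haarMeasure ⊤
  have hμS1 : μS Set.univ = 1 := by
    have h := Measure.haarMeasure_self (K₀ := (⊤ : TopologicalSpace.PositiveCompacts unitarySub572))
    simpa using h
  have : IsProbabilityMeasure μS := ⟨hμS1⟩
  have hval : Measurable (Subtype.val : unitarySub572 → GL (Fin 2) ℂ) :=
    continuous_subtype_val.measurable
  refine ⟨Measure.map Subtype.val μS, Measure.isProbabilityMeasure_map hval.aemeasurable, ?_, ?_⟩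
  · have hmeas : MeasurableSet {k : GL (Fin 2) ℂ | Fermat.Agent.LT.T3.AS.IsUnitary2 k} :=
      isCompact_unitarySet572.isClosed.measurableSet
    rw [ae_map_iff hval.aemeasurable hmeas]
    exact Filter.Eventually.of_forall fun s => s.2
  · intro k₀ hk₀
    let s₀ : unitarySub572 := ⟨k₀, hk₀⟩
    constructor
    · rw [Measure.map_map (continuous_const_mul k₀).measurable hval]
      have e : (fun k => k₀ * k) ∘ (Subtype.val : unitarySub572 → GL (Fin 2) ℂ)
          = Subtype.val ∘ (fun s : unitarySub572 => s₀ * s) := rfl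
      rw [e, ← Measure.map_map hval (continuous_const_mul s₀).measurable, map_mul_left_eq_self]
    · rw [Measure.map_map (continuous_mul_const k₀).measurable hval]
      have e : (fun k => k * k₀) ∘ (Subtype.val : unitarySub572 → GL (Fin 2) ℂ)
          = Subtype.val ∘ (fun s : unitarySub572 => s * s₀) := rfl
      rw [e, ← Measure.map_map hval (continuous_mul_const s₀).measurable,
        map_mul_right_eq_self_of_compact572 μS s₀]

end Fermat.Agent.LT.T3.H572

end
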